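import Fermat.Agent.LT2.Glue.Base
import Fermat.Agent.LT2.Fields.Datum
import Fermat.Agent.LT.Base.Cusp

/-!
# The auxiliary split place

For levels below and above a surjection, a prime `p ≡ -1` modulo a deep enough number gives a split
place `(-p)` off the bad ones, of eigenvalue zero, whose generator fixes the levels at the bad
places.
-/

set_option autoImplicit false

noncomputable section

open scoped Classical
open IsDedekindDomain NumberField
open scoped MatrixGroups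

namespace FermatAgent.LT2.Main

open FermatAgent.LT
open FermatAgent.LT.Octa (eq_of_natCast_mem)
open FermatAgent.CFT.Global (PK qOf gOf isPoint_gOf)
open FermatAgent.GaloisBasic (Qbar)

/-- A natural number divisible by a power of the residue characteristic is small. -/
lemma val_natCast_le {F : IntermediateField ℚ Qbar} [FiniteDimensional ℚ F] (w : PK F) {N m : ℕ}
    (h : qOf w ^ N ∣ m) : w.valuation F (m : F) ≤ WithZero.exp (-(N : ℤ)) := by
  obtain ⟨d, rfl⟩ := h
  have hlt : w.valuation F ((qOf w : ℕ) : F) < 1 := by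
    rw [← map_natCast (algebraMap (𝓞 F) F), HeightOneSpectrum.valuation_lt_one_iff_mem]
    exact Fields.GRep.natCast_mem_of_point (isPoint_gOf w)
  have hle : w.valuation F ((qOf w : ℕ) : F) ≤ WithZero.exp (-1 : ℤ) := by
    rcases eq_or_ne (w.valuation F ((qOf w : ℕ) : F)) 0 with h0 | h0
    · rw [h0]; exact zero_le
    · rw [← WithZero.exp_log h0, ← WithZero.exp_zero, WithZero.exp_lt_exp] at hlt
      rw [← WithZero.exp_log h0, WithZero.exp_le_exp]
      omega
  have hd : w.valuation F (d : F) ≤ 1 := by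
    rw [← map_natCast (algebraMap (𝓞 F) F)]
    exact HeightOneSpectrum.valuation_le_one w _
  push_cast
  rw [map_mul, map_pow]
  refine (mul_le_of_le_one_right' hd).trans ((pow_le_pow_left' hle N).trans_eq ?_)
  rw [← WithZero.exp_nsmul]
  simp

/-- A diagonal matrix near one lies in a congruence level. -/
lemma mk_dB_mem {F : Type*} [Field F] [NumberField F] {U : Level F}
    {w : HeightOneSpectrum (𝓞 F)} {n : ℕ}
    (hn : ∀ g ∈ locGL w, (∀ i j, w.valuation F ((g.val - 1) i j) ≤ WithZero.exp (-((n : ℤ) + 1))) →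
      Matrix.ProjGenLinGroup.mk g ∈ U.loc w)
    (α : Fˣ) (h : w.valuation F ((α : F) - 1) ≤ WithZero.exp (-((n : ℤ) + 1))) :
    (Matrix.ProjGenLinGroup.mk (dB α) : G2 F) ∈ U.loc w := by
  have hs : ∀ i j, w.valuation F (((dB α).val - 1) i j) ≤ WithZero.exp (-((n : ℤ) + 1)) := by
    intro i j
    fin_cases i <;> fin_cases j
    · exact h.trans' (le_of_eq (by simp))
    all_goals simp
  refine hn _ (mem_locGL_of_near fun i j => (hs i j).trans_lt ?_) hs
  rw [← WithZero.exp_zero, WithZero.exp_lt_exp]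
  omega

variable (R : Fields.GRep) (T : Finset ℕ)

/-- **The auxiliary place.** -/
theorem exists_aux_place {UL : Level R.Lf} {UK : Level R.Kf} (hL : UL.IsCongr) (hK : UK.IsCongr)
    (m₀ : ℕ) (hm₀ : m₀ ≠ 0) (avoid : Finset (HeightOneSpectrum (𝓞 R.Kf))) :
    ∃ (p : ℕ) (v : HeightOneSpectrum (𝓞 R.Kf)) (α : R.Kfˣ),
      p.Prime ∧ p % 3 = 2 ∧ p ∉ R.bad T ∧ m₀ ∣ p + 1 ∧ (α : R.Kf) = -(p : R.Kf) ∧
      v.asIdeal = Ideal.span {-(p : 𝓞 R.Kf)} ∧ v.asIdeal.absNorm = p ^ 2 ∧
      v.valuation R.Kf (α : R.Kf) = WithZero.exp (-1 : ℤ) ∧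
      (∀ u, u ≠ v → u.valuation R.Kf (α : R.Kf) = 1) ∧
      v ∉ (R.setup T).S ∧ v ∉ avoid ∧ (R.setup T).IsSplit v ∧ R.eigK v = 0 ∧
      (∀ u ∈ (R.setup T).S, (Matrix.ProjGenLinGroup.mk (dB α) : G2 R.Kf) ∈ UK.loc u) ∧
      ∀ w, (R.setup T).b w ∈ (R.setup T).S →
        (Matrix.ProjGenLinGroup.mk (dB (Units.map (algebraMap R.Kf R.Lf).toMonoidHom α)) :
          G2 R.Lf) ∈ UL.loc w := by
  choose nL hnL using hL
  choose nK hnK using hK
  set m := m₀ * (∏ u ∈ R.badK T, qOf u ^ (nK u + 1)) * ∏ w ∈ R.badL T, qOf w ^ (nL w + 1)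
  have hm : m ≠ 0 := mul_ne_zero (mul_ne_zero hm₀
    (Finset.prod_ne_zero_iff.2 fun u _ => pow_ne_zero _ (Fact.out : (qOf u).Prime).ne_zero))
    (Finset.prod_ne_zero_iff.2 fun u _ => pow_ne_zero _ (Fact.out : (qOf u).Prime).ne_zero)
  obtain ⟨p, hp, h2, hav, hpb, hmp, v, hpv, hspan, hS, hsplit, hN, hc⟩ :=
    R.exists_aux T m hm (avoid.image qOf)
  have hp0 : (-(p : R.Kf)) ≠ 0 := neg_ne_zero.2 (Nat.cast_ne_zero.2 hp.ne_zero)
  have hcast : algebraMap (𝓞 R.Kf) R.Kf (-(p : 𝓞 R.Kf)) = -(p : R.Kf) := by simp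
  have hK' : ∀ u ∈ R.badK T,
      u.valuation R.Kf (-(p : R.Kf) - 1) ≤ WithZero.exp (-((nK u : ℤ) + 1)) := fun u hu => by
    rw [show -(p : R.Kf) - 1 = -((p + 1 : ℕ) : R.Kf) by push_cast; ring, Valuation.map_neg]
    exact_mod_cast val_natCast_le u ((Dvd.dvd.mul_right (Dvd.dvd.mul_left (Finset.dvd_prod_of_mem
      (fun u => qOf u ^ (nK u + 1)) hu) m₀) _).trans hmp)
  have hL' : ∀ w ∈ R.badL T,
      w.valuation R.Lf (algebraMap R.Kf R.Lf (-(p : R.Kf)) - 1) ≤
        WithZero.exp (-((nL w : ℤ) + 1)) := fun w hw => by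
    rw [map_neg, map_natCast,
      show -(p : R.Lf) - 1 = -((p + 1 : ℕ) : R.Lf) by push_cast; ring, Valuation.map_neg]
    exact_mod_cast val_natCast_le w ((Dvd.dvd.mul_left (Finset.dvd_prod_of_mem
      (fun u => qOf u ^ (nL u + 1)) hw) _).trans hmp)
  refine ⟨p, v, Units.mk0 _ hp0, hp, h2, hpb,
    ((Dvd.intro _ rfl).mul_right _).trans hmp, rfl, hspan, hN, ?_, fun u hu => ?_, hS,
    fun h => ?_, hsplit, hc, fun u hu => mk_dB_mem (hnK u) _ (hK' u hu),
    fun w hw => mk_dB_mem (hnL w) _ (hL' w ((R.mem_badL T).2 hw))⟩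
  · show v.valuation R.Kf (-(p : R.Kf)) = _
    rw [← hcast, HeightOneSpectrum.valuation_of_algebraMap]
    exact v.intValuation_singleton (neg_ne_zero.2 (Nat.cast_ne_zero.2 hp.ne_zero)) hspan
  · show u.valuation R.Kf (-(p : R.Kf)) = 1
    rw [← hcast, HeightOneSpectrum.valuation_eq_one_iff_notMem]
    intro hmem
    refine hu (HeightOneSpectrum.ext (v.isMaximal.eq_of_le u.isPrime.ne_top ?_).symm)
    rw [hspan, Ideal.span_singleton_le_iff_mem]
    exact hmem
  · refine hav (Finset.mem_image.2 ⟨v, h, ?_⟩)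
    exact eq_of_natCast_mem (isPoint_gOf v) hp hpv

end FermatAgent.LT2.Main
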