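import Fermat.Agent.LT2.Theta.Main
import Fermat.Agent.LT2.Bad.Image
import Fermat.Agent.LT2.Bad.Fix

/-!
# The form above at every large depth
-/

set_option autoImplicit false

noncomputable section

open Matrix IsDedekindDomain NumberField
open scoped MatrixGroups ContDiff

namespace FermatAgent.LT2.Main

open FermatAgent.LT

variable {K L M : Type*} [Field K] [NumberField K] [Field L] [NumberField L] [Algebra K L]
  [IsTotallyComplex L] [Field M] [Algebra L M] [Algebra.IsQuadraticExtension L M]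

/-- What the descent consumes above: a nonzero eigenfunction of the deep level of `P` with Hecke
eigenvalues `c` at the good places, fixed by the idempotents at the bad places. -/
structure AboveForm {C : Setup K L} {n : ℕ} (P : Par C n) (c : HeightOneSpectrum (𝓞 L) → ℂ) where
  /-- the function -/
  φ : Space P.ctx.UL → ℂ
  isEigen : IsEigenFun φ
  hecke : ∀ w, C.b w ∉ C.S → ∀ x, heckeOp w φ x = c w * φ x
  fixed : ∀ w, C.b w ∈ C.S → ∀ x, finOp (P.bad.eL w) φ x = φ x
  ne_zero : φ ≠ 0

variable (C : Setup K L) (Θ : Theta.ThetaDatum L M)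

/-- A theta series which is a Hecke eigenfunction outside the bad places gives forms above at every
large depth. -/
theorem exists_above (hS : ∀ w, w ∈ Θ.S → C.b w ∈ C.S) (c : HeightOneSpectrum (𝓞 L) → ℂ)
    (hheck : ∀ w, C.b w ∉ C.S → ∀ x, heckeOp w Θ.phi x = c w * Θ.phi x) :
    ∃ N : ℕ, ∀ n, N ≤ n → ∀ P : Par C n, Nonempty (AboveForm P c) := by
  obtain ⟨y, a, hne⟩ := Θ.exists_liftF_phi_ne_zero
  obtain ⟨N, hN⟩ := Par.exists_image C Θ.isCongr_lvl
    (fun w hw => Whit.deepLvl_loc_of_notMem fun h => hw (hS w h))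
    ⟨Θ.phi_smul, Θ.measurable_phi, Θ.exists_bound_phi,
      fun w k hk hs x => Θ.radialOp_phi_hT w hk.continuous hs x⟩ c hheck
    fun e => hne (by rw [e]; rfl)
  refine ⟨N, fun n hn P => ?_⟩
  obtain ⟨ψ, hψ, hh, hfix, h0⟩ := hN n hn P
  exact ⟨⟨ψ, hψ, hh, hfix, h0⟩⟩

end FermatAgent.LT2.Main
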