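import Fermat.Agent.LT2.Fields.Data

/-!
# The eigenvalues at the primes of central Frobenius
-/

set_option autoImplicit false

noncomputable section

open scoped NumberField
open IsDedekindDomain NumberField

namespace FermatAgent.LT2.Main

local notation "Qbar" => AlgebraicClosure ℚ
local notation "GQ" => AlgebraicClosure ℚ ≃ₐ[ℚ] AlgebraicClosure ℚ

variable (R : Fields.GRep) (T : Finset ℕ) {c : HeightOneSpectrum (𝓞 R.Kf) → ℂ}

/-- A system agreeing with the representation at the good split places has the eigenvalues `± 2 √p`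
at the primes of central Frobenius. -/
theorem values (hc : ∀ v, v ∉ (R.setup T).S → (R.setup T).IsSplit v → c v = R.eigK v)
    {p : ℕ} (hp : p.Prime) (hb : p ∉ R.bad T) {A : ValuationSubring Qbar}
    (hA : A.LiesOverPrime p) {σ : GQ} (hσ : A.IsFrobeniusAt σ p)
    {v : HeightOneSpectrum (𝓞 R.Kf)} (hv : (p : 𝓞 R.Kf) ∈ v.asIdeal) :
    (R.e σ = 1 → c v = (√(p : ℝ) : ℂ) * 2) ∧ (R.e σ = -1 → c v = (√(p : ℝ) : ℂ) * -2) := by
  refine ⟨fun he => ?_, fun he => ?_⟩
  · obtain ⟨-, hS, hs, h1, -⟩ := R.central_frob T hp hb hA hσ (Or.inl he) hv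
    rw [hc v hS hs, h1 he]
  · obtain ⟨-, hS, hs, -, h2⟩ := R.central_frob T hp hb hA hσ (Or.inr he) hv
    rw [hc v hS hs, h2 he]

/-- A system agreeing with the representation at the good split places has the traces of the
representation there: the conditions at split primes. -/
theorem values_split (hc : ∀ v, v ∉ (R.setup T).S → (R.setup T).IsSplit v → c v = R.eigK v)
    {p : ℕ} (hp : p.Prime) (hb : p ∉ R.bad T) (h1 : p % 3 = 1)
    {v : HeightOneSpectrum (𝓞 R.Kf)} (hv : (p : 𝓞 R.Kf) ∈ v.asIdeal) :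
    (R.gP p = 1 → c v = (√(p : ℝ) : ℂ) * 2) ∧ (R.gP p = -1 → c v = (√(p : ℝ) : ℂ) * -2) := by
  obtain ⟨hS, hs⟩ := R.good T hp hb hv
  obtain ⟨e1, e2⟩ := R.hsplit hp (fun h => hb (R.badP_subset_bad T h)) h1 hv
  have h8 : ∀ g : LT.Period.GL3, g = 1 ∨ g = -1 → LT.Octa.IsQ8 g := by
    rintro g (rfl | rfl)
    · exact LT.Octa.q8.one_mem
    · exact LT.Octa.c4_le_q8 LT.Octa.c4_neg_one.1
  exact ⟨fun h => by rw [hc v hS (hs (Or.inr (h8 _ (Or.inl h)))), e1 h],
    fun h => by rw [hc v hS (hs (Or.inr (h8 _ (Or.inr h)))), e2 h]⟩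

/-- The conditions at inert primes. -/
theorem values_inert (hc : ∀ v, v ∉ (R.setup T).S → (R.setup T).IsSplit v → c v = R.eigK v)
    {p : ℕ} (hp : p.Prime) (hb : p ∉ R.bad T) (h2 : p % 3 = 2)
    {v : HeightOneSpectrum (𝓞 R.Kf)} (hv : (p : 𝓞 R.Kf) ∈ v.asIdeal) :
    (IsConj LT.Period.refl3 (R.gP p) → c v = (p : ℂ) * 2) ∧
      (¬IsConj LT.Period.refl3 (R.gP p) → c v = 0) := by
  obtain ⟨hS, hs⟩ := R.good T hp hb hv
  rw [hc v hS (hs (Or.inl h2))]
  exact R.hinert hp (fun h => hb (R.badP_subset_bad T h)) h2 hv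

end FermatAgent.LT2.Main
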