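import Fermat.Agent.LT2.Lift.Deepen
import Fermat.Agent.LT2.Ident.Main
import Fermat.Agent.LT2.Main.Values
import Fermat.Agent.LT2.Period.Main

/-!
# The input of the identification from a form below

A nonzero good form over the imaginary quadratic field with the eigenvalues of the representation at
the split good places has a flat vector with a nonzero period, hence lifts to weight one.
-/

set_option autoImplicit false

noncomputable section

open Matrix IsDedekindDomain NumberField UpperHalfPlane
open scoped MatrixGroups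

namespace FermatAgent.LT2.Main

open FermatAgent.LT
open FermatAgent.LT.Whit (adelGrp)

variable (R : Fields.GRep) (T : Finset ℕ)

/-- **Input from a form below.** -/
theorem nonempty_input_of_good {S : Finset (HeightOneSpectrum (𝓞 R.Kf))}
    {c : HeightOneSpectrum (𝓞 R.Kf) → ℂ}
    (hc : ∀ v, v ∉ (R.setup T).S → (R.setup T).IsSplit v → c v = R.eigK v)
    {f : InfPts R.Kf → adelGrp R.Kf → ℂ} (hf : Whit.IsGood S c f) (hne : f ≠ 0) :
    Nonempty (Ident.Input R) := by
  obtain ⟨θ, hE, hemb⟩ := R.exists_theta
  have : IsGalois ℚ R.Nf := isGalois_iff.2 ⟨inferInstance, R.normal_Nf⟩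
  have htr : LT.Period.IsGaloisTraces R.Nf R.eN R.gP (R.bad T) c :=
    ⟨R.eN_surj, fun p hp _ => R.isFrobImage_gP hp,
      fun p hp hb => R.det_gP hp fun h => hb (R.badP_subset_bad T h),
      fun p hp hb h1 v hv => values_split R T hc hp hb h1 hv,
      fun p hp hb h2 v hv => values_inert R T hc hp hb h2 hv⟩
  obtain ⟨bad, S', M, φ, hsub, -, hM, h3, hmem, hφ0, hφ, hdec, hU, hN, hcyc, hper⟩ :=
    Period.exists_period hE R.Nf htr hf hne
  have hP := (LT.Period.badProd_pos (bad := bad)).ne'
  obtain ⟨k, hk, hk3, F, hmd, hcusp, hinv, hne', hrel⟩ := Lift.exists_lift_of_flat hE hemb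
    (R := M) (m := M) (K₀ := 2 * M) h3 hP (by omega) hmem hφ hdec hU hN hcyc hper
  exact ⟨
    { k := k
      k_ne := hk
      f := F
      mdiff := hmd
      invariant := hinv
      cusp := hcusp
      ne_zero := hne'
      bad := R.bad T ∪ (LT.Period.badProd bad).primeFactors ∪ {3}
      hecke := fun p hp hpb hCM A hA σ hσ => by
        simp only [Finset.mem_union, Finset.mem_singleton, Nat.mem_primeFactors, not_or] at hpb
        have hdvd : ¬p ∣ LT.Period.badProd bad := fun h => hpb.1.2 ⟨hp, h, hP⟩
        exact ⟨fun he n => hrel p 2 hp hdvd hCM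
            (fun v hv => (values R T hc hp hpb.1.1 hA hσ hv).1 he) n,
          fun he n => hrel p (-2) hp hdvd hCM
            (fun v hv => (values R T hc hp hpb.1.1 hA hσ hv).2 he) n⟩ }⟩

end FermatAgent.LT2.Main
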