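import Fermat.Agent.LT2.Main.Above
import Fermat.Agent.LT2.Fields.Datum
import Fermat.Agent.LT2.Theta.Eigen

/-!
# The forms above of a surjection

The theta series of the datum of a surjection is an eigenfunction off the bad places with the traces
of the lift as eigenvalues, so it gives forms above at every large depth.
-/

set_option autoImplicit false

noncomputable section

open IsDedekindDomain NumberField

namespace FermatAgent.LT2.Main

open FermatAgent.LT

variable (R : Fields.GRep) (T : Finset ℕ)

/-- The eigenvalues of the theta series. -/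
theorem heckeOp_phi_eq {w : HeightOneSpectrum (𝓞 R.Lf)} (hw : w ∉ R.badL T)
    (x : Space (R.thetaDatum T).lvl) :
    heckeOp w (R.thetaDatum T).phi x = R.eigL w * (R.thetaDatum T).phi x := by
  have hw' : w ∉ (R.thetaDatum T).S := hw
  rcases (R.thetaDatum T).inert_or_splitPrime hw' with hi | ⟨ϖ, hϖ, -⟩
  · rw [(R.thetaDatum T).heckeOp_phi_inert hw' hi x, R.eigL_inert (R.noInertia_badL T hw) hi,
      zero_mul]
  · rw [(R.thetaDatum T).heckeOp_phi_split hw' hϖ x, ← R.eigL_split (R.noInertia_badL T hw) hϖ]
    rfl

/-- The forms above at every large depth. -/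
theorem exists_aboveForm :
    ∃ N : ℕ, ∀ n, N ≤ n → ∀ P : Par (R.setup T) n, Nonempty (AboveForm P R.eigL) :=
  exists_above (R.setup T) (R.thetaDatum T) (fun _ hw => (R.mem_badL T).1 hw) R.eigL
    fun _ hw x => heckeOp_phi_eq R T (fun h => hw ((R.mem_badL T).1 h)) x

end FermatAgent.LT2.Main
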