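import Fermat.Agent.LT2.Main.Below
import Fermat.Agent.LT2.Main.Theta
import Fermat.Agent.LT2.Main.Auxiliary
import Fermat.Agent.LT2.Cusp.Anchor
import Fermat.Agent.LT2.Cusp.Data
import Fermat.Agent.LT2.Geo.Main
import Fermat.Agent.LT2.Spec.Main

/-!
# The input of the identification exists

The theta series gives a form above fixed by the idempotents at a large depth; the cubic descent
along the family at an auxiliary place gives a good form below with the same eigenvalues at the
split places, whose period is nonzero.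
-/

set_option autoImplicit false

noncomputable section

open Matrix IsDedekindDomain NumberField
open scoped MatrixGroups

namespace FermatAgent.LT2.Main

open FermatAgent.LT

/-- A nonzero good form below with the eigenvalues of the representation at the split places. -/
theorem exists_below (R : Fields.GRep) :
    ∃ (c' : HeightOneSpectrum (𝓞 R.Kf) → ℂ) (f : InfPts R.Kf → LT.Whit.adelGrp R.Kf → ℂ),
      (∀ v, v ∉ (R.setup ∅).S → (R.setup ∅).IsSplit v → c' v = R.eigK v) ∧
        Whit.IsGood (R.setup ∅).S c' f ∧ f ≠ 0 := by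
  obtain ⟨N, hN⟩ := exists_aboveForm R ∅
  obtain ⟨P⟩ := exists_par (R.setup ∅) N
  obtain ⟨A⟩ := hN N le_rfl P
  obtain ⟨v', ⟨An⟩, -, hzero⟩ := exists_anchor R ∅ P.ctx rfl rfl subset_rfl ∅
  obtain ⟨w', hw'⟩ := R.exists_bK v'
  obtain ⟨F, hF⟩ := exists_fam_of_zero An ⟨w', hw'⟩ (Spec.isFD_domL P.ctx)
    (Spec.isFD_domK P.ctx) A.isEigen fun u x => by
      rw [A.hecke u.1 (by rw [show (R.setup ∅).b u.1 = v' from u.2]; exact An.notMem) x,
        R.eigL_eq_eigK, show R.bK u.1 = v' from u.2, hzero, zero_mul]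
  obtain ⟨p, v₀, -, -, -, -, -, -, -, -, -, -, hS, hne, hsp, hc0, -⟩ :=
    exists_aux_place R ∅ P.ctx.congrL P.ctx.congrK 1 one_ne_zero {v'}
  obtain ⟨w, hw⟩ := R.exists_bK v₀
  obtain ⟨c', ψ, hc', hf, hker⟩ := Spec.exists_descent P.ctx P.bad hsp hS
    (fun h => hne (by simp [h])) F ⟨w', hw'⟩ ⟨w, hw⟩
    (Geo.geoEq P.bad _ hsp hS (Spec.isFD_domL P.ctx) (Spec.isFD_domK P.ctx)
      (Spec.measurableSet_domK P.ctx))
    P.fixHyp R.eigK hc0 A.isEigen (fun w hw _ x => by rw [A.hecke w hw x, R.eigL_eq_eigK]; rfl)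
    A.fixed hF A.ne_zero
  exact ⟨c', _, hc', hf, Spec.liftF_ne_zero_of_foldr hker⟩

/-- **The input of the identification exists.** -/
theorem nonempty_input_rep (R : Fields.GRep) : Nonempty (Ident.Input R) := by
  obtain ⟨c', f, hc', hf, hne⟩ := exists_below R
  exact nonempty_input_of_good R ∅ hc' hf hne

end FermatAgent.LT2.Main
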